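/-
Programme DS (S48), chapter G-X0 (helper16): the ROOT INTERFACE of the generic twins.

An abstract "level" `L : LevelData` consists of
* a rational function field `L.F₀ ⊆ ℚ((q))` together with a generating set `L.gensQ ∋ j(q)`;
* a subgroup `L.Gam ≤ SL(2, ℤ)` containing `-1` and the principal congruence subgroup `Γ(L.w)`
  (`L.w ≠ 0` = a common multiple of all cusp widths).

Everything downstream is written against `(L : LevelData)` and the two interface structures
`RealizeDataL L Lc ι` (analytic realisation of `Lc[generators]` by `L.Gam`-invariant holomorphic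
functions on the upper half plane, with `q`-expansion the formal element) and `CuspDataL L Lc ι D`
(expansions at all cusps), which are the verbatim generalisations of `X0.RealizeData N` and
`X0.CuspData N D` (`X0/Iface.lean`): there `Lc = ℚbar`, `ι = iotaK`, generators `j(q^d)`, `d ∣ N`,
`L.Gam = Γ₀(N)`, `L.w = N`.  The coefficient field `Lc` (with `ι : Lc →+* ℂ`) is a parameter
(`ℚbar` for the arithmetic chapters, `ℂ` for the Kummer chapter).

`AnalyticGens L Lc ι` is the list of per-generator analytic facts from which the two structures are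
built (chapter X1 provides it for `Γ₁(M)`); `L0 N` is the `Γ₀(N)` instance with
`(L0 N).F₀ = modularFunctionFieldFull N` DEFINITIONALLY, so that `FFL (L0 N)` is the carrier of the
Prelude's `modularFunctionFieldBar N`.
-/
import Mathlib
import Fermat.Agent.X0.AnDefs
import Fermat.Agent.X0.Analytic

set_option autoImplicit false
set_option linter.unusedSectionVars false

open UpperHalfPlane ModularCurve
open scoped MatrixGroups

noncomputable section

namespace Fermat.Agent.DS.G.Level

open Fermat.Agent.X0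

/-- **Abstract level data.** -/
structure LevelData where
  /-- the rational function field inside `ℚ((q))` -/
  F₀ : IntermediateField ℚ (LaurentSeries ℚ)
  /-- a generating set of `F₀` (formal `q`-expansions of the generators) -/
  gensQ : Set (LaurentSeries ℚ)
  adjoin_eq : IntermediateField.adjoin ℚ gensQ = F₀
  jq_mem : ModularCurve.jq ∈ gensQ
  /-- the group (always containing `-1`) -/
  Gam : Subgroup SL(2, ℤ)
  neg_one_mem : (-1 : SL(2, ℤ)) ∈ Gam
  /-- a common multiple of the cusp widths -/
  w : ℕ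
  [w_neZero : NeZero w]
  gamma_le : CongruenceSubgroup.Gamma w ≤ Gam

attribute [instance] LevelData.w_neZero

namespace LevelData

variable (L : LevelData)

theorem gensQ_subset : L.gensQ ⊆ (L.F₀ : Set (LaurentSeries ℚ)) := by
  intro x hx
  have h : x ∈ IntermediateField.adjoin ℚ L.gensQ := IntermediateField.subset_adjoin ℚ _ hx
  rw [L.adjoin_eq] at h
  exact h

theorem jq_mem_F₀ : ModularCurve.jq ∈ L.F₀ := L.gensQ_subset L.jq_mem

instance finiteIndex : L.Gam.FiniteIndex :=
  Subgroup.finiteIndex_of_le L.gamma_le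

instance finite_quotient : Finite (SL(2, ℤ) ⧸ L.Gam) :=
  Subgroup.finite_quotient_of_finiteIndex

theorem w_pos : 0 < L.w := Nat.pos_of_ne_zero (NeZero.ne L.w)

/-- The generator `j` as an element of the index type of the generators. -/
def jGen : L.gensQ := ⟨ModularCurve.jq, L.jq_mem⟩

end LevelData

/-! ### The function field over a coefficient field `Lc` -/

section Coeff

variable (L : LevelData) (Lc : Type) [Field Lc] [Algebra ℚ Lc]

/-- The function field `Lc · F₀ ⊆ Lc((q))`. -/
abbrev FFc : Type := ↥(ModularCurve.laurentBaseChange Lc L.F₀)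

/-- The generator attached to `g ∈ L.gensQ`, as an element of `FFc L Lc`. -/
def genc (g : L.gensQ) : FFc L Lc :=
  ⟨ModularCurve.coeffEmb Lc (g : LaurentSeries ℚ),
    ModularCurve.coeffEmb_mem_laurentBaseChange Lc (L.gensQ_subset g.2)⟩

@[simp] theorem coe_genc (g : L.gensQ) :
    ((genc L Lc g : FFc L Lc) : LaurentSeries Lc) =
      ModularCurve.coeffEmb Lc (g : LaurentSeries ℚ) := rfl

/-- The set of generators of `FFc L Lc`. -/
def genSetc : Set (FFc L Lc) := Set.range (genc L Lc)

theorem genc_mem_genSetc (g : L.gensQ) : genc L Lc g ∈ genSetc L Lc := ⟨g, rfl⟩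

/-- The `Lc`-subalgebra `R = Lc[generators]` of `FFc L Lc`. -/
def Rsubc : Subalgebra Lc (FFc L Lc) := Algebra.adjoin Lc (genSetc L Lc)

/-- The generator attached to `g ∈ L.gensQ`, as an element of `Rsubc L Lc`. -/
def genR (g : L.gensQ) : Rsubc L Lc :=
  ⟨genc L Lc g, Algebra.subset_adjoin (genc_mem_genSetc L Lc g)⟩

@[simp] theorem coe_genR (g : L.gensQ) : ((genR L Lc g : Rsubc L Lc) : FFc L Lc) = genc L Lc g :=
  rfl

/-- The formal `j` as an element of `FFc L Lc`. -/
def jFc : FFc L Lc := genc L Lc L.jGen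

/-- The formal `j` as an element of `Rsubc L Lc`. -/
def jR : Rsubc L Lc := genR L Lc L.jGen

@[simp] theorem coe_jR : ((jR L Lc : Rsubc L Lc) : FFc L Lc) = jFc L Lc := rfl

theorem coe_jFc :
    ((jFc L Lc : FFc L Lc) : LaurentSeries Lc) = ModularCurve.coeffEmb Lc ModularCurve.jq := rfl

/-- The subfield `Lc(j)` of `FFc L Lc`. -/
def Kjc : IntermediateField Lc (FFc L Lc) := IntermediateField.adjoin Lc {jFc L Lc}

/-- Induction principle for `Rsubc L Lc`. -/
theorem Rsubc_induction {p : Rsubc L Lc → Prop}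
    (hgen : ∀ g : L.gensQ, p (genR L Lc g))
    (hconst : ∀ c : Lc, p (algebraMap Lc (Rsubc L Lc) c))
    (hadd : ∀ u v, p u → p v → p (u + v))
    (hmul : ∀ u v, p u → p v → p (u * v)) (u : Rsubc L Lc) : p u := by
  obtain ⟨x, hx⟩ := u
  unfold Rsubc at hx
  induction hx using Algebra.adjoin_induction with
  | mem y hy =>
      obtain ⟨g, rfl⟩ := hy
      exact hgen g
  | algebraMap c => exact hconst c
  | add y z hy hz ihy ihz => exact hadd ⟨y, hy⟩ ⟨z, hz⟩ ihy ihz
  | mul y z hy hz ihy ihz => exact hmul ⟨y, hy⟩ ⟨z, hz⟩ ihy ihz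

end Coeff

/-! ### The two interface structures -/

section Iface

variable (L : LevelData) (Lc : Type) [Field Lc] [Algebra ℚ Lc] (ι : Lc →+* ℂ)

/-- Analytic realisation of `R = Lc[generators]` as holomorphic functions on `ℍ`: an injective
ring hom `Θ` with `Θ c = ι c` on constants, `Θ j = j`, holomorphic and `L.Gam`-invariant values,
whose values have as `q`-expansion (after `ι`) the formal element.
(Generalisation of `X0.RealizeData N`.) -/
structure RealizeDataL where
  /-- the realisation map -/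
  Θ : Rsubc L Lc →+* (ℍ → ℂ)
  injective : Function.Injective Θ
  algebraMap_eq : ∀ c : Lc, Θ (algebraMap Lc (Rsubc L Lc) c) = fun _ => ι c
  j_eq : Θ (jR L Lc) = jFun
  mem_HolH : ∀ u : Rsubc L Lc, Θ u ∈ HolH
  isQExp : ∀ u : Rsubc L Lc, ∃ (m : ℕ) (P : PowerSeries Lc),
    IsQExp 1 (Θ u) m (P.map ι) ∧ (((u : FFc L Lc) : LaurentSeries Lc)) = laurentOf m P
  invariant : ∀ (u : Rsubc L Lc) (γ : SL(2, ℤ)), γ ∈ L.Gam → compSL (Θ u) γ = Θ u

/-- Cusp expansions: for every `γ ∈ SL(2, ℤ)` a ring hom `T γ : F → Lc((q_w))`, which on `u ∈ R`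
is the `q_w`-expansion of `Θ u ∘ γ`.  (Generalisation of `X0.CuspData N D`.) -/
structure CuspDataL (D : RealizeDataL L Lc ι) where
  /-- the expansion maps -/
  T : SL(2, ℤ) → (FFc L Lc →+* LaurentSeries Lc)
  spec : ∀ (γ : SL(2, ℤ)) (u : Rsubc L Lc), ∃ (m : ℕ) (P : PowerSeries Lc),
    IsQExp L.w (compSL (D.Θ u) γ) m (P.map ι) ∧ T γ (u : FFc L Lc) = laurentOf m P

/-- **HYP3 / DISTINCT**: the cusp expansion maps separate the right cosets `L.Gam γ`. -/
def CuspDataL.Distinct {D : RealizeDataL L Lc ι} (C : CuspDataL L Lc ι D) : Prop :=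
  ∀ γ γ' : SL(2, ℤ), C.T γ = C.T γ' → γ' * γ⁻¹ ∈ L.Gam

/-- The per-generator analytic facts from which `RealizeDataL` and `CuspDataL` are built
(the concrete chapter X1 provides them for `Γ₁(M)`):
* `hasQExp`  : the formal generator is the convergent `q`-expansion of `gFun g` on all of `ℍ`;
* `invariant`: `gFun g` is `L.Gam`-invariant;
* `cusp`     : `gFun g ∘ γ` has a `q_w`-expansion with coefficients in `ι Lc`, for every `γ`;
* `distinct` : the functions `gFun g ∘ γ` determine the coset `L.Gam γ`. -/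
structure AnalyticGens where
  /-- the analytic generators -/
  gFun : L.gensQ → (ℍ → ℂ)
  hasQExp : ∀ g : L.gensQ,
    Analytic.HasQExp (ModularCurve.coeffEmb ℂ (g : LaurentSeries ℚ)) (gFun g)
  j_eq : gFun L.jGen = jFun
  invariant : ∀ (g : L.gensQ) (γ : SL(2, ℤ)), γ ∈ L.Gam → compSL (gFun g) γ = gFun g
  cusp : ∀ (g : L.gensQ) (γ : SL(2, ℤ)), ∃ (m : ℕ) (P : PowerSeries Lc),
    IsQExp L.w (compSL (gFun g) γ) m (P.map ι)
  distinct : ∀ γ γ' : SL(2, ℤ),
    (∀ g : L.gensQ, compSL (gFun g) γ = compSL (gFun g) γ') → γ' * γ⁻¹ ∈ L.Gam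

end Iface

/-! ### The arithmetic specialisation `Lc = ℚbar`, `ι = iotaK` -/

section Kbar

variable (L : LevelData)

/-- The function field `ℚbar · F₀ ⊆ ℚbar((q))`. -/
abbrev FFL : Type := FFc L Kbar

/-- `R = ℚbar[generators]`. -/
abbrev RsubL : Subalgebra Kbar (FFL L) := Rsubc L Kbar

/-- `ℚbar(j)`. -/
abbrev KjL : IntermediateField Kbar (FFL L) := Kjc L Kbar

/-- The formal `j` in `FFL L`. -/
abbrev jFL : FFL L := jFc L Kbar

/-- `X0.RealizeData`, generalised. -/
abbrev RealizeDataK : Type := RealizeDataL L Kbar iotaK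

/-- `X0.CuspData`, generalised. -/
abbrev CuspDataK (D : RealizeDataK L) : Type := CuspDataL L Kbar iotaK D

/-- The Jacobian of the level: `Pic⁰` of the function field over `ℚbar`, with the Prelude's Galois
action (`ModularCurve.arithmeticGalois L.F₀`). -/
abbrev JL : Type := AlgebraicCurve.Pic0 Kbar (ModularCurve.laurentBaseChange Kbar L.F₀)

example : DistribMulAction (Kbar ≃ₐ[ℚ] Kbar) (JL L) := inferInstance

end Kbar

/-! ### The `Γ₀(N)` instance -/

section L0

variable (N : ℕ) [NeZero N]

theorem Gamma_le_Gamma0 : CongruenceSubgroup.Gamma N ≤ CongruenceSubgroup.Gamma0 N := by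
  intro γ hγ
  rw [CongruenceSubgroup.Gamma_mem] at hγ
  rw [CongruenceSubgroup.Gamma0_mem]
  exact hγ.2.2.1

theorem neg_one_mem_Gamma0 : (-1 : SL(2, ℤ)) ∈ CongruenceSubgroup.Gamma0 N := by
  rw [CongruenceSubgroup.Gamma0_mem]
  simp

theorem jq_mem_divisorExpansions : ModularCurve.jq ∈ ModularCurve.divisorExpansions N :=
  ⟨1, inferInstance, one_dvd N, (ModularCurve.qExpand_one_apply _).symm⟩

/-- **The level `Γ₀(N)`**: `F₀ = ℚ(j(q^d) : d ∣ N)` (the Prelude's field, definitionally),
`Gam = Γ₀(N)`, `w = N`. -/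
def L0 : LevelData where
  F₀ := ModularCurve.modularFunctionFieldFull N
  gensQ := ModularCurve.divisorExpansions N
  adjoin_eq := rfl
  jq_mem := jq_mem_divisorExpansions N
  Gam := CongruenceSubgroup.Gamma0 N
  neg_one_mem := neg_one_mem_Gamma0 N
  w := N
  gamma_le := Gamma_le_Gamma0 N

@[simp] theorem L0_F₀ : (L0 N).F₀ = ModularCurve.modularFunctionFieldFull N := rfl
@[simp] theorem L0_Gam : (L0 N).Gam = CongruenceSubgroup.Gamma0 N := rfl
@[simp] theorem L0_w : (L0 N).w = N := rfl

/-- The carrier of the generic function field at `L0 N` IS the Prelude's (and `X0.FF N`). -/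
example : FFL (L0 N) = FF N := rfl

/-- The generic Jacobian at `L0 N` IS the Prelude's `JZero N`. -/
example : JL (L0 N) = ModularCurve.JZero N := rfl

end L0

end Fermat.Agent.DS.G.Level
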